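import Fermat.Agent.H92.MW.BasicInterfaces

/-!
# P-MW / MW-MOVE (row 694, helper30): interfaces of the moving lemma

`MoveStatement`: every ideal class of `R` contains a squarefree integral ideal of a fixed degree
`d₀`, coprime to any given nonzero ideal (Bertini for a pencil, over `ℚ`).

Route.  `I₀` := integral ideal of degree `d₁ ≤ max g m₀` in the inverse class; `m := d₀ + d₁`,
`V := I₀ ∩ W m`; for `0 ≠ v ∈ V` put `(v) = I₀ * I_v`.  Choose `v₀ ∈ V` of exact pole order `m`,
then `v₁ ∈ V` without common zero with `v₀` outside `I₀` (`BPFStatement`); in the pencil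
`v₁ - c v₀`, `c ∈ ℚ`, only finitely many members are not squarefree: with `h = v₁ / v₀`,
`G(h, t) = 0` for a bivariate polynomial `G` whose specialisations `G(c, Y)` are separable for
almost all `c` (`SepStatement`), and almost all maximal ideals of `R` are unramified over `ℚ[t]`
(`FiniteOverTStatement`, `UnramifiedStatement`).

Rows:
* `BPFStatement 𝒞`         (MV-BPF)  base-point-freeness, from `bar_rr` (base change to `ℚ̄`);
* `FiniteOverTStatement 𝒞` (MV-FIN)  `t` is transcendental and `R` is finite over `ℚ[t]`;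
* `UnramifiedStatement`     (MV-RAM)  generic: finitely many ramified primes over `ℚ[t]`;
* `SepStatement`            (MV-SEP)  generic: separable specialisations of a minimal relation.
-/

set_option autoImplicit false

noncomputable section

open Module TensorProduct Polynomial

namespace Fermat.Agent.H30.MW

open Fermat.Agent.H92.MW

variable {R : Type} [CommRing R] [Algebra ℚ R] [IsDedekindDomain R]

/-- **MV-BPF** base-point-freeness of `L(m ∞ - D₀)` for `m ≥ deg D₀ + m₀ + 1`: for every
maximal ideal `P` there is a section `v ∈ I₀ ∩ W m` which does not vanish at `P` to higher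
order than `I₀`. -/
def BPFStatement (𝒞 : MWDatum R) : Prop :=
  ∀ (I₀ P : Ideal R) (m : ℕ), I₀ ≠ ⊥ → P.IsMaximal → 𝒞.deg I₀ + 𝒞.m₀ + 1 ≤ m →
    ∃ v : R, v ∈ I₀ ∧ v ∈ 𝒞.W m ∧ v ∉ I₀ * P

/-- **MV-FIN** `t` is transcendental over `ℚ` and `R` is a finite `ℚ[t]`-module. -/
def FiniteOverTStatement (𝒞 : MWDatum R) : Prop :=
  Transcendental ℚ 𝒞.t ∧ (aeval (R := ℚ) 𝒞.t).toRingHom.Finite

/-- **MV-RAM** (generic, Mathlib only) If the Dedekind domain `R` is finite over `ℚ[t]`, then all
but finitely many maximal ideals `P` of `R` are unramified over `ℚ[t]`: the generator `π` of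
`P ∩ ℚ[t]` satisfies `π(t) ∈ P`, `π(t) ∉ P ^ 2`. -/
def UnramifiedStatement : Prop :=
  ∀ (R : Type) [CommRing R] [Algebra ℚ R] [IsDedekindDomain R] (t : R),
    Transcendental ℚ t → (aeval (R := ℚ) t).toRingHom.Finite →
    ∃ S : Set (Ideal R), S.Finite ∧ ∀ P : Ideal R, P.IsMaximal → P ∉ S →
      ∃ π : ℚ[X], aeval t π ∈ P ∧ aeval t π ∉ P ^ 2 ∧ ∀ q : ℚ[X], aeval t q ∈ P → π ∣ q

/-- Evaluation of a bivariate polynomial `G ∈ ℚ[X][Y]` at `(h, t)`. -/
def eval₂₂ {K : Type} [CommRing K] [Algebra ℚ K] (h t : K) (G : (ℚ[X])[X]) : K :=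
  (G.map (aeval (R := ℚ) h).toRingHom).eval t

/-- **MV-SEP** (generic, Mathlib only) If `h` is transcendental over `ℚ` and `(h, t)` satisfies a
nontrivial polynomial relation, then there is a relation `G(h, t) = 0` such that the
specialisation `G(c, Y) ∈ ℚ[Y]` is separable for all but finitely many `c ∈ ℚ`. -/
def SepStatement : Prop :=
  ∀ (K : Type) [Field K] [Algebra ℚ K] (h t : K), Transcendental ℚ h →
    (∃ F : (ℚ[X])[X], F ≠ 0 ∧ eval₂₂ h t F = 0) →
    ∃ G : (ℚ[X])[X], eval₂₂ h t G = 0 ∧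
      {c : ℚ | ¬ (G.map (evalRingHom c)).Separable}.Finite

end Fermat.Agent.H30.MW

end
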