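import Mathlib

/-!
# P-MW / LPF-G-FIN (row 848, helper30): local rings of a Dedekind domain at maximal ideals

Generic facts (Mathlib only): for a Dedekind domain `A` which is not a field and a maximal ideal
`𝔪`, `O := Localization.AtPrime 𝔪` is a discrete valuation ring; the image `u` of an element of
`𝔪 ∖ 𝔪 ^ 2` is a uniformizer; `f ↦ f / 1` induces isomorphisms `A / 𝔪 ^ n ≃ O / (u ^ n)`.
-/

set_option autoImplicit false
set_option linter.unusedSectionVars false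

noncomputable section

open IsLocalRing

namespace Fermat.Agent.H30.MW

variable {A : Type} [CommRing A] [IsDedekindDomain A] (𝔪 : Ideal A) [h𝔪 : 𝔪.IsMaximal]

/-- The local ring at `𝔪`. -/
abbrev LocAt : Type := Localization.AtPrime 𝔪

lemma isDVR_locAt (hne : 𝔪 ≠ ⊥) : IsDiscreteValuationRing (LocAt 𝔪) :=
  IsLocalization.AtPrime.isDiscreteValuationRing_of_dedekind_domain A hne (LocAt 𝔪)

lemma map_pow_eq (n : ℕ) :
    Ideal.map (algebraMap A (LocAt 𝔪)) (𝔪 ^ n) = maximalIdeal (LocAt 𝔪) ^ n := by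
  rw [Ideal.map_pow, IsLocalization.AtPrime.map_eq_maximalIdeal 𝔪 (LocAt 𝔪)]

/-- `f / 1 ∈ 𝔪 ^ n O` iff `f ∈ 𝔪 ^ n`. -/
lemma algebraMap_mem_pow_iff (n : ℕ) (f : A) :
    algebraMap A (LocAt 𝔪) f ∈ maximalIdeal (LocAt 𝔪) ^ n ↔ f ∈ 𝔪 ^ n := by
  rw [← map_pow_eq]
  constructor
  · intro h
    rw [IsLocalization.mem_map_algebraMap_iff 𝔪.primeCompl] at h
    obtain ⟨⟨a, s⟩, hs⟩ := h
    rw [← map_mul] at hs
    obtain ⟨c, hc⟩ := (IsLocalization.eq_iff_exists 𝔪.primeCompl (LocAt 𝔪)).1 hs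
    have h1 : ((c : A) * (s : A)) * f ∈ 𝔪 ^ n := by
      have : (c : A) * (f * (s : A)) = (c : A) * (a : A) := hc
      have h2 : ((c : A) * (s : A)) * f = (c : A) * (a : A) := by
        rw [← this]; ring
      rw [h2]
      exact Ideal.mul_mem_left _ _ a.2
    have hcs : (c : A) * (s : A) ∉ 𝔪 := fun hmem =>
      (h𝔪.isPrime.mem_or_mem hmem).elim c.2 s.2
    exact (Ideal.IsMaximal.mul_mem_pow 𝔪 h1).resolve_left hcs
  · intro h
    exact Ideal.mem_map_of_mem _ h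

lemma algebraMap_mem_maximalIdeal_iff (f : A) :
    algebraMap A (LocAt 𝔪) f ∈ maximalIdeal (LocAt 𝔪) ↔ f ∈ 𝔪 := by
  have := algebraMap_mem_pow_iff 𝔪 1 f
  simpa using this

/-! ### the uniformizer -/

lemma exists_unifElt (hne : 𝔪 ≠ ⊥) : ∃ w : A, w ∈ 𝔪 ∧ w ∉ 𝔪 ^ 2 :=
  SetLike.exists_of_lt (Ideal.pow_lt_self 𝔪 hne h𝔪.ne_top 2 le_rfl)

/-- A chosen element of `𝔪 ∖ 𝔪 ^ 2`. -/
def unifElt (hne : 𝔪 ≠ ⊥) : A := (exists_unifElt 𝔪 hne).choose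

lemma unifElt_mem (hne : 𝔪 ≠ ⊥) : unifElt 𝔪 hne ∈ 𝔪 := (exists_unifElt 𝔪 hne).choose_spec.1

lemma unifElt_not_mem_sq (hne : 𝔪 ≠ ⊥) : unifElt 𝔪 hne ∉ 𝔪 ^ 2 :=
  (exists_unifElt 𝔪 hne).choose_spec.2

/-- The uniformizer of the local ring at `𝔪`. -/
def unif (hne : 𝔪 ≠ ⊥) : LocAt 𝔪 := algebraMap A (LocAt 𝔪) (unifElt 𝔪 hne)

lemma unif_mem (hne : 𝔪 ≠ ⊥) : unif 𝔪 hne ∈ maximalIdeal (LocAt 𝔪) :=
  (algebraMap_mem_maximalIdeal_iff 𝔪 _).2 (unifElt_mem 𝔪 hne)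

lemma maximalIdeal_eq_span_unif (hne : 𝔪 ≠ ⊥) :
    maximalIdeal (LocAt 𝔪) = Ideal.span {unif 𝔪 hne} := by
  have := isDVR_locAt 𝔪 hne
  obtain ⟨ϖ, hϖ⟩ := IsDiscreteValuationRing.exists_irreducible (LocAt 𝔪)
  have hmax := (IsDiscreteValuationRing.irreducible_iff_uniformizer ϖ).1 hϖ
  have hu : unif 𝔪 hne ∈ Ideal.span {ϖ} := hmax ▸ unif_mem 𝔪 hne
  obtain ⟨x, hx⟩ := Ideal.mem_span_singleton.1 hu
  have hxu : IsUnit x := by
    rw [← IsLocalRing.notMem_maximalIdeal]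
    intro hxm
    rw [hmax] at hxm
    obtain ⟨y, hy⟩ := Ideal.mem_span_singleton.1 hxm
    have h2 : unif 𝔪 hne ∈ maximalIdeal (LocAt 𝔪) ^ 2 := by
      rw [hmax, Ideal.span_singleton_pow, Ideal.mem_span_singleton]
      exact ⟨y, by rw [hx, hy]; ring⟩
    exact unifElt_not_mem_sq 𝔪 hne ((algebraMap_mem_pow_iff 𝔪 2 _).1 h2)
  rw [hmax, hx]
  exact (Ideal.span_singleton_mul_right_unit hxu ϖ).symm

lemma unif_irreducible (hne : 𝔪 ≠ ⊥) : Irreducible (unif 𝔪 hne) := by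
  have := isDVR_locAt 𝔪 hne
  exact (IsDiscreteValuationRing.irreducible_iff_uniformizer _).2
    (maximalIdeal_eq_span_unif 𝔪 hne)

lemma span_unif_pow (hne : 𝔪 ≠ ⊥) (n : ℕ) :
    Ideal.span {unif 𝔪 hne ^ n} = maximalIdeal (LocAt 𝔪) ^ n := by
  rw [maximalIdeal_eq_span_unif 𝔪 hne, Ideal.span_singleton_pow]

/-- `emb_mem` -/
lemma algebraMap_mem_span_unif_pow_iff (hne : 𝔪 ≠ ⊥) (n : ℕ) (f : A) :
    algebraMap A (LocAt 𝔪) f ∈ Ideal.span {unif 𝔪 hne ^ n} ↔ f ∈ 𝔪 ^ n := by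
  rw [span_unif_pow, algebraMap_mem_pow_iff]

lemma isCoprime_span_pow {s₀ : A} (hs₀ : s₀ ∉ 𝔪) (n : ℕ) :
    IsCoprime (Ideal.span {s₀}) (𝔪 ^ n) := by
  apply IsCoprime.pow_right
  rw [Ideal.isCoprime_iff_sup_eq]
  by_contra hne'
  have hle : Ideal.span {s₀} ⊔ 𝔪 = 𝔪 := by
    have h1 : 𝔪 ≤ Ideal.span {s₀} ⊔ 𝔪 := le_sup_right
    exact (h𝔪.eq_of_le hne' h1).symm
  have hmem : s₀ ∈ Ideal.span {s₀} ⊔ 𝔪 :=
    Ideal.mem_sup_left (Ideal.mem_span_singleton_self _)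
  rw [hle] at hmem
  exact hs₀ hmem

/-- `emb_surj` -/
lemma exists_algebraMap_sub_mem (hne : 𝔪 ≠ ⊥) (n : ℕ) (h : LocAt 𝔪) :
    ∃ f : A, algebraMap A (LocAt 𝔪) f - h ∈ Ideal.span {unif 𝔪 hne ^ n} := by
  obtain ⟨a, s, rfl⟩ := IsLocalization.exists_mk'_eq 𝔪.primeCompl h
  have hcop := isCoprime_span_pow 𝔪 s.2 n
  obtain ⟨x, hx, e, he, hsum⟩ := Ideal.isCoprime_iff_exists.1 hcop
  obtain ⟨s', rfl⟩ := Ideal.mem_span_singleton'.1 hx
  refine ⟨a * s', ?_⟩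
  rw [span_unif_pow, ← map_pow_eq, IsLocalization.mem_map_algebraMap_iff 𝔪.primeCompl]
  refine ⟨⟨⟨-(a * e), (𝔪 ^ n).neg_mem (Ideal.mul_mem_left _ _ he)⟩, s⟩, ?_⟩
  simp only
  rw [sub_mul, IsLocalization.mk'_spec, ← map_mul, ← map_sub]
  congr 1
  have : e = 1 - s' * (s : A) := by rw [← hsum]; ring
  rw [this]
  ring

/-! ### the structure over a field -/

section Field

variable {k : Type} [Field k] [Algebra k A]

/-- The localisation map as a `k`-algebra homomorphism. -/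
def locEmb : A →ₐ[k] LocAt 𝔪 := IsScalarTower.toAlgHom k A (LocAt 𝔪)

@[simp] lemma locEmb_apply (f : A) : locEmb (k := k) 𝔪 f = algebraMap A (LocAt 𝔪) f := rfl

/-- `res`: the residue field of the local ring is `k` if the residue field of `𝔪` is. -/
lemma exists_sub_algebraMap_mem (hne : 𝔪 ≠ ⊥)
    (hnull : ∀ a : A, ∃ c : k, a - algebraMap k A c ∈ 𝔪) (h : LocAt 𝔪) :
    ∃ a : k, h - algebraMap k (LocAt 𝔪) a ∈ maximalIdeal (LocAt 𝔪) := by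
  obtain ⟨f, hf⟩ := exists_algebraMap_sub_mem 𝔪 hne 1 h
  rw [pow_one, ← maximalIdeal_eq_span_unif] at hf
  obtain ⟨c, hc⟩ := hnull f
  refine ⟨c, ?_⟩
  have h1 := (algebraMap_mem_maximalIdeal_iff 𝔪 _).2 hc
  rw [map_sub, ← IsScalarTower.algebraMap_apply k A (LocAt 𝔪)] at h1
  have h2 := (maximalIdeal (LocAt 𝔪)).sub_mem h1 hf
  have heq : algebraMap A (LocAt 𝔪) f - algebraMap k (LocAt 𝔪) c
      - (algebraMap A (LocAt 𝔪) f - h) = h - algebraMap k (LocAt 𝔪) c := by ring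
  rwa [heq] at h2

/-- `eft`: the local ring is essentially of finite type. -/
lemma exists_finset_adjoin (hft : Algebra.FiniteType k A) :
    ∃ S : Finset (LocAt 𝔪), ∀ h : LocAt 𝔪, ∃ p q : LocAt 𝔪,
      p ∈ Algebra.adjoin k (S : Set (LocAt 𝔪)) ∧ q ∈ Algebra.adjoin k (S : Set (LocAt 𝔪)) ∧
        IsUnit q ∧ h * q = p := by
  classical
  obtain ⟨S₀, hS₀⟩ := hft.out
  have hmem : ∀ a : A, algebraMap A (LocAt 𝔪) a
      ∈ Algebra.adjoin k ((S₀.image (algebraMap A (LocAt 𝔪)) : Finset (LocAt 𝔪)) : Set (LocAt 𝔪)) := by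
    intro a
    have h1 : a ∈ Algebra.adjoin k (S₀ : Set A) := by rw [hS₀]; trivial
    have h2 : locEmb (k := k) 𝔪 a ∈ (Algebra.adjoin k (S₀ : Set A)).map (locEmb (k := k) 𝔪) :=
      ⟨a, h1, rfl⟩
    rw [AlgHom.map_adjoin] at h2
    rw [Finset.coe_image]
    exact h2
  refine ⟨S₀.image (algebraMap A (LocAt 𝔪)), fun h => ?_⟩
  obtain ⟨a, s, rfl⟩ := IsLocalization.exists_mk'_eq 𝔪.primeCompl h
  exact ⟨algebraMap A _ a, algebraMap A _ (s : A), hmem a, hmem s,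
    IsLocalization.map_units _ s, IsLocalization.mk'_spec _ a s⟩

end Field

end Fermat.Agent.H30.MW

end
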