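import Fermat.Agent.H89.MW.LpfGeoInterfaces
import Fermat.Agent.H30.MW.FinLocal

/-!
# P-MW / LPF-G-FIN (row 848, helper30): centres of integral points

For a test object `(𝒦, V)` and a point `P : R → 𝒦` with values in `V`, the extension
`Pbar : ℚ̄ ⊗ R → 𝒦` has values in `V`; `𝔪 := {a | |Pbar a| < 1}` is a maximal ideal and `Pbar`
extends to the local ring at `𝔪`.
-/

set_option autoImplicit false
set_option linter.unusedSectionVars false

noncomputable section

open Module TensorProduct Polynomial IsLocalRing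

namespace Fermat.Agent.H30.MW

open Fermat.Agent.H92.MW Fermat.Agent.H89.MW

/-- Every element of `𝒦` algebraic over `ℚ` is in the image of `ι : ℚ̄ → 𝒦`. -/
lemma exists_eq_of_isAlgebraic {𝒦 : Type} [Field 𝒦] [Algebra ℚ 𝒦] (ι : QQbar →ₐ[ℚ] 𝒦) {c : 𝒦}
    (hc : IsAlgebraic ℚ c) : ∃ c' : QQbar, ι c' = c := by
  set p := minpoly ℚ c with hp
  have hp0 : p ≠ 0 := minpoly.ne_zero hc.isIntegral
  have hsplit : (p.map (algebraMap ℚ QQbar)).Splits := IsAlgClosed.splits _
  have hroots := hsplit.roots_map ι.toRingHom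
  have hmap : (p.map (algebraMap ℚ QQbar)).map ι.toRingHom = p.map (algebraMap ℚ 𝒦) := by
    rw [Polynomial.map_map]
    congr 1
    exact ι.comp_algebraMap
  rw [hmap] at hroots
  have hcroot : c ∈ (p.map (algebraMap ℚ 𝒦)).roots := by
    rw [Polynomial.mem_roots (Polynomial.map_ne_zero hp0), Polynomial.IsRoot, Polynomial.eval_map,
      ← Polynomial.aeval_def]
    exact minpoly.aeval ℚ c
  rw [hroots, Multiset.mem_map] at hcroot
  obtain ⟨c', -, hc'⟩ := hcroot
  exact ⟨c', hc'⟩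

variable {R : Type} [CommRing R] [Algebra ℚ R]

section Point

variable {𝒦 : Type} [Field 𝒦] [Algebra ℚ 𝒦] (V : ValuationSubring 𝒦)
  (ι : QQbar →ₐ[ℚ] 𝒦) (P : R →ₐ[ℚ] 𝒦)

/-- The extension of a point to `ℚ̄ ⊗ R`. -/
def pointBar : (QQbar ⊗[ℚ] R) →ₐ[ℚ] 𝒦 := Algebra.TensorProduct.productMap ι P

@[simp] lemma pointBar_tmul (c : QQbar) (r : R) : pointBar ι P (c ⊗ₜ[ℚ] r) = ι c * P r := rfl

lemma pointBar_algebraMap (c : QQbar) :
    pointBar ι P (algebraMap QQbar (QQbar ⊗[ℚ] R) c) = ι c := by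
  rw [Algebra.TensorProduct.algebraMap_apply, pointBar_tmul, map_one, mul_one]
  rfl

lemma pointBar_one_tmul (r : R) : pointBar ι P ((1 : QQbar) ⊗ₜ[ℚ] r) = P r := by
  rw [pointBar_tmul, map_one, one_mul]

variable {V}

lemma pointBar_mem (hV : IsQbarValRing V) (hP : ∀ r : R, P r ∈ V) (a : QQbar ⊗[ℚ] R) :
    pointBar ι P a ∈ V := by
  induction a using TensorProduct.induction_on with
  | zero => rw [map_zero]; exact V.zero_mem
  | tmul c r =>
    rw [pointBar_tmul]
    have hcalg : IsAlgebraic ℚ c := (AlgebraicClosure.isAlgebraic ℚ).isAlgebraic c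
    exact V.mul_mem _ _ (hV.1 _ (IsAlgebraic.algHom ι hcalg)) (hP r)
  | add x y hx hy => rw [map_add]; exact V.add_mem _ _ hx hy

/-- The extension of an integral point, as a ring homomorphism into `V`. -/
def pointBarV (hV : IsQbarValRing V) (hP : ∀ r : R, P r ∈ V) : (QQbar ⊗[ℚ] R) →+* V :=
  (pointBar ι P).toRingHom.codRestrict V.toSubring (pointBar_mem ι P hV hP)

@[simp] lemma pointBarV_coe (hV : IsQbarValRing V) (hP : ∀ r : R, P r ∈ V)
    (a : QQbar ⊗[ℚ] R) : ((pointBarV ι P hV hP a : V) : 𝒦) = pointBar ι P a := rfl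

/-- The centre of an integral point. -/
def centreIdeal (hV : IsQbarValRing V) (hP : ∀ r : R, P r ∈ V) : Ideal (QQbar ⊗[ℚ] R) :=
  (maximalIdeal V).comap (pointBarV ι P hV hP)

lemma mem_centreIdeal (hV : IsQbarValRing V) (hP : ∀ r : R, P r ∈ V) (a : QQbar ⊗[ℚ] R) :
    a ∈ centreIdeal ι P hV hP ↔ V.valuation (pointBar ι P a) < 1 := by
  unfold centreIdeal
  rw [Ideal.mem_comap, ValuationSubring.valuation_lt_one_iff]
  rfl

lemma centreIdeal_null (hV : IsQbarValRing V) (hP : ∀ r : R, P r ∈ V) (a : QQbar ⊗[ℚ] R) :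
    ∃ c : QQbar, a - algebraMap QQbar (QQbar ⊗[ℚ] R) c ∈ centreIdeal ι P hV hP := by
  obtain ⟨c, hcalg, hc⟩ := hV.2 _ (pointBar_mem ι P hV hP a)
  obtain ⟨c', rfl⟩ := exists_eq_of_isAlgebraic ι hcalg
  refine ⟨c', ?_⟩
  rw [mem_centreIdeal, map_sub, pointBar_algebraMap]
  exact (ValuationSubring.mem_nonunits_iff V).1 hc

lemma centreIdeal_isMaximal (hV : IsQbarValRing V) (hP : ∀ r : R, P r ∈ V) :
    (centreIdeal ι P hV hP).IsMaximal := by
  rw [Ideal.isMaximal_iff]
  refine ⟨?_, fun J x hJ hx hxJ => ?_⟩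
  · rw [mem_centreIdeal, map_one, map_one]
    exact lt_irrefl _
  · obtain ⟨c, hc⟩ := centreIdeal_null ι P hV hP x
    have hcJ : algebraMap QQbar (QQbar ⊗[ℚ] R) c ∈ J := by
      have := J.sub_mem hxJ (hJ hc)
      rwa [sub_sub_cancel] at this
    have hc0 : c ≠ 0 := by
      rintro rfl
      rw [map_zero, sub_zero] at hc
      exact hx hc
    have := J.mul_mem_left (algebraMap QQbar (QQbar ⊗[ℚ] R) c⁻¹) hcJ
    rwa [← map_mul, inv_mul_cancel₀ hc0, map_one] at this

end Point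

end Fermat.Agent.H30.MW

end
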