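import Fermat.Agent.H30.MW.FinCentre

/-!
# P-MW / LPF-G-FIN (row 848, helper30): the finite places

`finSystem : BarFacts 𝒞 → Nonempty (FinSystem 𝒞)`: the finite places are the maximal ideals of
`ℚ̄ ⊗ R`, with local rings `Localization.AtPrime 𝔪`.
-/

set_option autoImplicit false
set_option linter.unusedSectionVars false

noncomputable section

open Module TensorProduct Polynomial IsLocalRing

namespace Fermat.Agent.H30.MW

open Fermat.Agent.H92.MW Fermat.Agent.H89.MW

/-- The maximal ideals of a ring, as a type. -/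
abbrev MaxPl (A : Type) [CommRing A] : Type := {𝔪 : Ideal A // 𝔪.IsMaximal}

/-- The maximal ideal of a place is maximal (local instance). -/
lemma MaxPl.isMaximal {A : Type} [CommRing A] (c : MaxPl A) : c.1.IsMaximal := c.2

attribute [local instance] MaxPl.isMaximal

variable {R : Type} [CommRing R] [Algebra ℚ R]

section Loc

variable [IsDedekindDomain (QQbar ⊗[ℚ] R)]
  {𝒦 : Type} [Field 𝒦] [Algebra ℚ 𝒦] {V : ValuationSubring 𝒦}
  (ι : QQbar →ₐ[ℚ] 𝒦) (P : R →ₐ[ℚ] 𝒦) (hV : IsQbarValRing V) (hP : ∀ r : R, P r ∈ V)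

/-- The centre of an integral point, as a place. -/
def centrePl : MaxPl (QQbar ⊗[ℚ] R) := ⟨centreIdeal ι P hV hP, centreIdeal_isMaximal ι P hV hP⟩

lemma pointBar_isUnit (y : (centrePl ι P hV hP).1.primeCompl) :
    IsUnit ((pointBar ι P).toRingHom y) := by
  rw [isUnit_iff_ne_zero]
  intro h0
  apply y.2
  show (y : QQbar ⊗[ℚ] R) ∈ centreIdeal ι P hV hP
  rw [mem_centreIdeal]
  have : pointBar ι P (y : QQbar ⊗[ℚ] R) = 0 := h0
  rw [this, map_zero]
  exact zero_lt_one

/-- The extension of an integral point to the local ring at its centre. -/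
def pointLoc : LocAt (centrePl ι P hV hP).1 →+* 𝒦 :=
  IsLocalization.lift (M := (centrePl ι P hV hP).1.primeCompl) (pointBar_isUnit ι P hV hP)

lemma pointLoc_algebraMap (a : QQbar ⊗[ℚ] R) :
    pointLoc ι P hV hP (algebraMap _ (LocAt (centrePl ι P hV hP).1) a) = pointBar ι P a :=
  IsLocalization.lift_eq _ a

lemma pointLoc_mem (h : LocAt (centrePl ι P hV hP).1) : pointLoc ι P hV hP h ∈ V := by
  obtain ⟨a, s, rfl⟩ := IsLocalization.exists_mk'_eq (centrePl ι P hV hP).1.primeCompl h
  have hspec : (pointBar ι P).toRingHom a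
      = (pointBar ι P).toRingHom s * pointLoc ι P hV hP (IsLocalization.mk' _ a s) :=
    (IsLocalization.lift_mk'_spec _ _ _ _).1 rfl
  have hs1 : V.valuation (pointBar ι P (s : QQbar ⊗[ℚ] R)) = 1 := by
    have hle : V.valuation (pointBar ι P (s : QQbar ⊗[ℚ] R)) ≤ 1 :=
      (V.valuation_le_one_iff _).2 (pointBar_mem ι P hV hP _)
    have hnlt : ¬ V.valuation (pointBar ι P (s : QQbar ⊗[ℚ] R)) < 1 := fun hlt =>
      s.2 ((mem_centreIdeal ι P hV hP _).2 hlt)
    exact le_antisymm hle (not_lt.1 hnlt)
  have ha : V.valuation (pointBar ι P a) ≤ 1 :=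
    (V.valuation_le_one_iff _).2 (pointBar_mem ι P hV hP _)
  rw [← V.valuation_le_one_iff]
  have h2 := congrArg V.valuation hspec
  rw [map_mul] at h2
  change V.valuation (pointBar ι P a) = V.valuation (pointBar ι P (s : QQbar ⊗[ℚ] R)) * _ at h2
  rw [hs1, one_mul] at h2
  rw [← h2]
  exact ha

end Loc

/-- **[LPF-G-FIN]** The finite places of the datum. -/
theorem finSystem [IsDedekindDomain R] (𝒞 : MWDatum R) (hB : BarFacts 𝒞) :
    Nonempty (FinSystem 𝒞) := by
  have := 𝒞.bar_dedekind
  have hne : ∀ c : MaxPl (QQbar ⊗[ℚ] R), c.1 ≠ ⊥ := fun c =>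
    Ring.ne_bot_of_isMaximal_of_not_isField c.2 hB.not_isField
  exact ⟨
    { Pl := MaxPl (QQbar ⊗[ℚ] R)
      O := fun c => LocAt c.1
      commRing := fun c => inferInstance
      isDomain := fun c => inferInstance
      dvr := fun c => isDVR_locAt c.1 (hne c)
      algebra := fun c => inferInstance
      u := fun c => unif c.1 (hne c)
      u_irr := fun c => unif_irreducible c.1 (hne c)
      res := fun c h => exists_sub_algebraMap_mem c.1 (hne c) (hB.null c.1 c.2) h
      eft := fun c => exists_finset_adjoin c.1 hB.finiteType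
      ideal := fun c => c.1
      ideal_max := fun c => c.2
      ideal_inj := Subtype.val_injective
      emb := fun c => locEmb c.1
      emb_mem := fun c n f => algebraMap_mem_span_unif_pow_iff c.1 (hne c) n f
      emb_surj := fun c n h => exists_algebraMap_sub_mem c.1 (hne c) n h
      centre := fun 𝒦 _ _ _ V hV ι P hP => by
        refine ⟨centrePl ι P hV hP, pointLoc ι P hV hP, pointLoc_mem ι P hV hP, fun a => ?_,
          ?_, fun r => ?_⟩
        · rw [IsScalarTower.algebraMap_apply QQbar (QQbar ⊗[ℚ] R)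
            (LocAt (centrePl ι P hV hP).1), pointLoc_algebraMap, pointBar_algebraMap]
        · show V.valuation (pointLoc ι P hV hP (algebraMap _ _ _)) < 1
          rw [pointLoc_algebraMap, ← mem_centreIdeal ι P hV hP]
          exact unifElt_mem (centrePl ι P hV hP).1 (hne _)
        · show pointLoc ι P hV hP (algebraMap _ _ _) = _
          rw [pointLoc_algebraMap, pointBar_one_tmul] }⟩

end Fermat.Agent.H30.MW

end
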