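import Fermat.Agent.H30.MW.MoveBasics

/-!
# P-MW / MW-MOVE (row 694, helper30): the function `h = v₁ / v₀` of a pencil

* `transcendental_quot` : `v₁ / v₀` is transcendental over `ℚ` if `v₀, v₁` are linearly
  independent;
* `exists_relation` : `v₁ / v₀` and `t` satisfy a nontrivial polynomial relation (dimension
  count in `W M`).
-/

set_option autoImplicit false
set_option linter.unusedSectionVars false

noncomputable section

open Module Polynomial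
open scoped nonZeroDivisors

namespace Fermat.Agent.H30.MW

open Fermat.Agent.H92.MW

variable {R : Type} [CommRing R] [Algebra ℚ R] [IsDedekindDomain R] (𝒞 : MWDatum R)

section

variable (K : Type) [Field K] [Algebra R K] [IsFractionRing R K] [Algebra ℚ K]
  [IsScalarTower ℚ R K]

/-- The quotient of two linearly independent elements of `R` is transcendental over `ℚ`. -/
theorem transcendental_quot (hB : BasicStatement 𝒞) {v₀ v₁ : R} (hv₀ : v₀ ≠ 0)
    (hind : ∀ c : ℚ, v₁ ≠ c • v₀) :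
    Transcendental ℚ (algebraMap R K v₁ / algebraMap R K v₀) := by
  intro halg
  have hx₀ : algebraMap R K v₀ ≠ 0 := by
    rwa [Ne, IsFractionRing.to_map_eq_zero_iff]
  have hintR : IsIntegral R (algebraMap R K v₁ / algebraMap R K v₀) :=
    halg.isIntegral.tower_top
  obtain ⟨r, hr⟩ := IsIntegrallyClosed.isIntegral_iff.1 hintR
  have hrv : r * v₀ = v₁ := by
    apply IsFractionRing.injective R K
    rw [map_mul, hr]
    field_simp
  have hralg : IsAlgebraic ℚ r := by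
    rw [← isAlgebraic_algebraMap_iff (IsFractionRing.injective R K), hr]
    exact halg
  have hr0 : r ≠ 0 := by
    rintro rfl
    apply hind 0
    rw [zero_smul, ← hrv, zero_mul]
  have hunit : IsUnit r := hralg.isIntegral.isUnit hr0
  obtain ⟨r', hr'⟩ := hunit.exists_right_inv
  have hr'0 : r' ≠ 0 := by
    rintro rfl
    rw [mul_zero] at hr'
    exact zero_ne_one hr'
  have hpole := hB.2.2.1 r r' hr0 hr'0
  rw [hr', pole_one] at hpole
  have hpr : pole 𝒞 r = 0 := by omega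
  have hrW : r ∈ 𝒞.W 0 := mem_W_of_pole_le 𝒞 (le_of_eq hpr)
  obtain ⟨c, hc⟩ := (mem_W_zero_iff 𝒞).1 hrW
  apply hind c
  rw [← hrv, ← hc, Algebra.smul_def]

end

/-! ### the dimension count -/

lemma one_mem_W (m : ℕ) : (1 : R) ∈ 𝒞.W m := by
  have := algebraMap_mem_W 𝒞 1 m
  simpa using this

lemma mul_mem_W {a b : R} {m m' : ℕ} (ha : a ∈ 𝒞.W m) (hb : b ∈ 𝒞.W m') :
    a * b ∈ 𝒞.W (m + m') :=
  𝒞.W_mul m m' (Submodule.mul_mem_mul ha hb)

lemma pow_mem_W {a : R} {m : ℕ} (ha : a ∈ 𝒞.W m) (i : ℕ) : a ^ i ∈ 𝒞.W (i * m) := by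
  induction i with
  | zero => simpa using one_mem_W 𝒞 0
  | succ i ih =>
    rw [pow_succ, Nat.succ_mul]
    exact mul_mem_W 𝒞 ih ha

/-- The monomials `v₁ ^ i v₀ ^ (n - i) t ^ j`. -/
def pencilMonomial (v₀ v₁ : R) (n : ℕ) (ij : ℕ × ℕ) : R :=
  v₁ ^ ij.1 * v₀ ^ (n - ij.1) * 𝒞.t ^ ij.2

lemma pencilMonomial_mem {m : ℕ} {v₀ v₁ : R} (h₀ : v₀ ∈ 𝒞.W m) (h₁ : v₁ ∈ 𝒞.W m) (n k : ℕ)
    {i j : ℕ} (hi : i ≤ n) (hj : j ≤ k) :
    pencilMonomial 𝒞 v₀ v₁ n (i, j) ∈ 𝒞.W (n * m + k * 𝒞.e) := by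
  have h := mul_mem_W 𝒞 (mul_mem_W 𝒞 (pow_mem_W 𝒞 h₁ i) (pow_mem_W 𝒞 h₀ (n - i)))
    (pow_mem_W 𝒞 𝒞.t_mem j)
  refine 𝒞.W_mono ?_ h
  have h1 : i * m + (n - i) * m = n * m := by
    rw [← Nat.add_mul, Nat.add_sub_cancel' hi]
  have h2 : j * 𝒞.e ≤ k * 𝒞.e := Nat.mul_le_mul_right _ hj
  omega

/-- The bivariate polynomial with coefficients `a i j`. -/
def relPoly (n k : ℕ) (a : Fin (n + 1) × Fin (k + 1) → ℚ) : (ℚ[X])[X] :=
  ∑ j : Fin (k + 1), monomial (j : ℕ) (∑ i : Fin (n + 1), monomial (i : ℕ) (a (i, j)))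

lemma relPoly_coeff (n k : ℕ) (a : Fin (n + 1) × Fin (k + 1) → ℚ) (i : Fin (n + 1))
    (j : Fin (k + 1)) : ((relPoly n k a).coeff j).coeff i = a (i, j) := by
  unfold relPoly
  rw [finsetSum_coeff]
  simp only [coeff_monomial, Fin.val_inj, Finset.sum_ite_eq', Finset.mem_univ, if_true]
  rw [finsetSum_coeff]
  simp only [coeff_monomial, Fin.val_inj, Finset.sum_ite_eq', Finset.mem_univ, if_true]

lemma relPoly_ne_zero (n k : ℕ) {a : Fin (n + 1) × Fin (k + 1) → ℚ} (ha : a ≠ 0) :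
    relPoly n k a ≠ 0 := by
  intro h0
  apply ha
  funext ⟨i, j⟩
  have := relPoly_coeff n k a i j
  rw [h0] at this
  simpa using this.symm

section

variable (K : Type) [Field K] [Algebra R K] [IsFractionRing R K] [Algebra ℚ K]
  [IsScalarTower ℚ R K]

lemma eval₂₂_relPoly (n k : ℕ) (a : Fin (n + 1) × Fin (k + 1) → ℚ) (h τ : K) :
    eval₂₂ h τ (relPoly n k a)
      = ∑ j : Fin (k + 1), ∑ i : Fin (n + 1), algebraMap ℚ K (a (i, j)) * h ^ (i : ℕ) * τ ^ (j : ℕ) := by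
  unfold eval₂₂ relPoly
  rw [Polynomial.map_sum, eval_finsetSum]
  refine Finset.sum_congr rfl fun j _ => ?_
  rw [map_monomial, eval_monomial, AlgHom.toRingHom_eq_coe, RingHom.coe_coe, map_sum,
    Finset.sum_mul]
  refine Finset.sum_congr rfl fun i _ => ?_
  rw [aeval_monomial]

/-- `v₁ / v₀` and `t` satisfy a nontrivial polynomial relation. -/
theorem exists_relation {m : ℕ} (hm : 1 ≤ m) {v₀ v₁ : R} (h₀ : v₀ ∈ 𝒞.W m) (h₁ : v₁ ∈ 𝒞.W m)
    (hv₀ : v₀ ≠ 0) :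
    ∃ F : (ℚ[X])[X], F ≠ 0 ∧
      eval₂₂ (algebraMap R K v₁ / algebraMap R K v₀) (algebraMap R K 𝒞.t) F = 0 := by
  set n := m * 𝒞.e with hn
  set k := m with hk
  set M := n * m + k * 𝒞.e with hM
  -- the linear map `a ↦ ∑ a i j • v₁ ^ i v₀ ^ (n - i) t ^ j`
  let w : Fin (n + 1) × Fin (k + 1) → 𝒞.W M := fun ij =>
    ⟨pencilMonomial 𝒞 v₀ v₁ n ((ij.1 : ℕ), (ij.2 : ℕ)),
      pencilMonomial_mem 𝒞 h₀ h₁ n k (Nat.lt_succ_iff.1 ij.1.2) (Nat.lt_succ_iff.1 ij.2.2)⟩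
  let Φ : (Fin (n + 1) × Fin (k + 1) → ℚ) →ₗ[ℚ] 𝒞.W M := Fintype.linearCombination ℚ w
  have hdim : finrank ℚ (𝒞.W M) < finrank ℚ (Fin (n + 1) × Fin (k + 1) → ℚ) := by
    rw [Module.finrank_fintype_fun_eq_card, Fintype.card_prod, Fintype.card_fin, Fintype.card_fin]
    have h1 := finrank_W_le 𝒞 M
    have h2 : (n + 1) * (k + 1) = n * m + k * 𝒞.e + m + 1 := by
      rw [hk, hn]; ring
    omega
  have hker : LinearMap.ker Φ ≠ ⊥ := LinearMap.ker_ne_bot_of_finrank_lt hdim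
  obtain ⟨a, haker, ha0⟩ := Submodule.exists_mem_ne_zero_of_ne_bot hker
  refine ⟨relPoly n k a, relPoly_ne_zero n k ha0, ?_⟩
  have hx₀ : algebraMap R K v₀ ≠ 0 := by
    rwa [Ne, IsFractionRing.to_map_eq_zero_iff]
  have hsum : ∑ ij : Fin (n + 1) × Fin (k + 1), a ij • pencilMonomial 𝒞 v₀ v₁ n
      ((ij.1 : ℕ), (ij.2 : ℕ)) = 0 := by
    have h1 : Φ a = 0 := haker
    have h2 := congrArg (fun x : 𝒞.W M => (x : R)) h1
    simp only [Φ, Fintype.linearCombination_apply, Submodule.coe_sum, Submodule.coe_smul,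
      Submodule.coe_zero] at h2
    exact h2
  rw [eval₂₂_relPoly]
  have hxn : (algebraMap R K v₀) ^ n ≠ 0 := pow_ne_zero _ hx₀
  apply mul_left_cancel₀ hxn
  rw [mul_zero, Finset.mul_sum]
  have h3 := congrArg (algebraMap R K) hsum
  rw [map_zero, map_sum, Fintype.sum_prod_type, Finset.sum_comm] at h3
  rw [← h3]
  refine Finset.sum_congr rfl fun j _ => ?_
  rw [Finset.mul_sum]
  refine Finset.sum_congr rfl fun i _ => ?_
  have hi : (i : ℕ) ≤ n := Nat.lt_succ_iff.1 i.2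
  rw [Algebra.smul_def, map_mul, ← IsScalarTower.algebraMap_apply ℚ R K]
  unfold pencilMonomial
  simp only [map_mul, map_pow]
  rw [div_pow]
  have hpow : (algebraMap R K v₀) ^ n
      = (algebraMap R K v₀) ^ (i : ℕ) * (algebraMap R K v₀) ^ (n - (i : ℕ)) := by
    rw [← pow_add, Nat.add_sub_cancel' hi]
  have hxi : (algebraMap R K v₀) ^ (i : ℕ) ≠ 0 := pow_ne_zero _ hx₀
  rw [hpow]
  field_simp

end

end Fermat.Agent.H30.MW

end
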