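import Fermat.Agent.H30.MW.MoveLocal
import Fermat.Agent.H30.MW.MoveRel

/-!
# P-MW / MW-MOVE (row 694, helper30): the moving lemma, assembly

`move_of_parts : BasicStatement 𝒞 → BPFStatement 𝒞 → FiniteOverTStatement 𝒞 →
  UnramifiedStatement → SepStatement → 𝒞.MoveStatement`.
-/

set_option autoImplicit false
set_option linter.unusedSectionVars false

noncomputable section

open Module Polynomial IsDedekindDomain
open scoped nonZeroDivisors

namespace Fermat.Agent.H30.MW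

open Fermat.Agent.H92.MW

variable {R : Type} [CommRing R] [Algebra ℚ R] [IsDedekindDomain R]

/-! ### auxiliary lemmas -/

/-- At most one member of a pencil lies in a subspace which does not contain both
generators. -/
lemma pencil_subsingleton (U : Submodule ℚ R) {v₀ v₁ : R} (h : ¬ (v₀ ∈ U ∧ v₁ ∈ U)) :
    {c : ℚ | v₁ - c • v₀ ∈ U}.Subsingleton := by
  intro c hc c' hc'
  by_contra hne
  have h1 : (c' - c) • v₀ ∈ U := by
    have := U.sub_mem hc hc'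
    have heq : v₁ - c • v₀ - (v₁ - c' • v₀) = (c' - c) • v₀ := by
      rw [sub_smul]; abel
    rwa [heq] at this
  have h2 : v₀ ∈ U := by
    have hcc : c' - c ≠ 0 := sub_ne_zero.2 (Ne.symm hne)
    have := U.smul_mem (c' - c)⁻¹ h1
    rwa [smul_smul, inv_mul_cancel₀ hcc, one_smul] at this
  have h3 : v₁ ∈ U := by
    have := U.add_mem hc (U.smul_mem c h2)
    rwa [sub_add_cancel] at this
  exact h ⟨h2, h3⟩

lemma finite_maximal_dvd {A : Ideal R} (hA : A ≠ ⊥) :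
    {P : Ideal R | P.IsMaximal ∧ P ∣ A}.Finite := by
  have h := Ideal.finite_factors hA
  refine (h.image (fun v => v.asIdeal)).subset ?_
  rintro P ⟨hP, hPA⟩
  have hPne : P ≠ ⊥ := by
    rintro rfl
    rw [Ideal.dvd_iff_le] at hPA
    exact hA (le_bot_iff.1 hPA)
  exact ⟨⟨P, hP.isPrime, hPne⟩, hPA, rfl⟩

lemma squarefree_of_forall_maximal {I : Ideal R}
    (h : ∀ P : Ideal R, P.IsMaximal → ¬ P ^ 2 ∣ I) : Squarefree I := by
  intro Q hQ
  rw [Ideal.isUnit_iff]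
  by_contra hne
  obtain ⟨P, hP, hQP⟩ := Ideal.exists_le_maximal Q hne
  have hPQ : P ∣ Q := Ideal.dvd_iff_le.2 hQP
  apply h P hP
  rw [pow_two]
  exact (mul_dvd_mul hPQ hPQ).trans hQ

lemma isCoprime_of_forall_maximal {I J : Ideal R}
    (h : ∀ P : Ideal R, P.IsMaximal → J ≤ P → ¬ P ∣ I) : IsCoprime I J := by
  rw [Ideal.isCoprime_iff_sup_eq]
  by_contra hne
  obtain ⟨P, hP, hle⟩ := Ideal.exists_le_maximal _ hne
  exact h P hP (le_sup_right.trans hle) (Ideal.dvd_iff_le.2 (le_sup_left.trans hle))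

/-- In a vector space of dimension `≥ 2` over `ℚ` there is a vector outside a given line and
outside finitely many proper subspaces. -/
lemma exists_avoid {E : Type} [AddCommGroup E] [Module ℚ E]
    (x₀ : E) (h2 : 2 ≤ finrank ℚ E) (T : Set (Submodule ℚ E)) (hT : T.Finite)
    (hproper : ∀ p ∈ T, p ≠ ⊤) :
    ∃ x₁ : E, (∀ c : ℚ, x₁ ≠ c • x₀) ∧ ∀ p ∈ T, x₁ ∉ p := by
  classical
  have hline : Submodule.span ℚ {x₀} ≠ ⊤ := by
    intro h
    have h1 : finrank ℚ E ≤ 1 := by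
      refine finrank_le_one x₀ fun w => ?_
      have hw : w ∈ Submodule.span ℚ {x₀} := by rw [h]; trivial
      exact Submodule.mem_span_singleton.1 hw
    omega
  let s : Finset (Subspace ℚ E) := insert (Submodule.span ℚ {x₀}) hT.toFinset
  have hs : ⊤ ∉ s := by
    rw [Finset.mem_insert]
    rintro (h | h)
    · exact hline h.symm
    · exact hproper _ (hT.mem_toFinset.1 h) rfl
  have hne := Subspace.biUnion_ne_univ_of_top_notMem hs
  have hex : ∃ x₁ : E, ∀ p ∈ s, x₁ ∉ p := by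
    by_contra hcon
    simp only [not_exists, not_forall, not_not] at hcon
    apply hne
    ext x
    simp only [Set.mem_iUnion, SetLike.mem_coe, Set.mem_univ, iff_true]
    obtain ⟨p, hp, hxp⟩ := hcon x
    exact ⟨p, hp, hxp⟩
  obtain ⟨x₁, hx₁⟩ := hex
  refine ⟨x₁, fun c hc => ?_, fun p hp => hx₁ p (Finset.mem_insert_of_mem (hT.mem_toFinset.2 hp))⟩
  apply hx₁ _ (Finset.mem_insert_self _ _)
  rw [Submodule.mem_span_singleton]
  exact ⟨c, hc.symm⟩

/-! ### the moving lemma -/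

/-- **MW-MOVE** from its parts. -/
theorem move_of_parts (𝒞 : MWDatum R) (hB : BasicStatement 𝒞) (hBPF : BPFStatement 𝒞)
    (hFIN : FiniteOverTStatement 𝒞) (hRAM : UnramifiedStatement) (hSEP : SepStatement) :
    𝒞.MoveStatement := by
  classical
  obtain ⟨-, hRR, -, hdegspan, hdegmul, -⟩ := id hB
  refine ⟨max 𝒞.g 𝒞.m₀ + 1, fun x J hJ => ?_⟩
  obtain ⟨I₀, hI₀cls, hI₀deg⟩ := exists_small_rep 𝒞 hB x⁻¹
  have hI₀ne : (I₀ : Ideal R) ≠ ⊥ := mem_nonZeroDivisors_iff_ne_zero.1 I₀.2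
  set d₁ := 𝒞.deg I₀ with hd₁
  set B₀ := max 𝒞.g 𝒞.m₀ with hB₀
  have hgB : 𝒞.g ≤ B₀ := le_max_left _ _
  have hmB : 𝒞.m₀ ≤ B₀ := le_max_right _ _
  set m' := B₀ + d₁ with hm'
  have hrr1 := hRR I₀ (m' + 1) hI₀ne (by omega)
  have hrr0 := hRR I₀ m' hI₀ne (by omega)
  -- the space of sections
  set E : Submodule ℚ (𝒞.W (m' + 1)) := 𝒞.rrSpace (m' + 1) I₀ with hE
  let ι : E →ₗ[ℚ] R := (𝒞.W (m' + 1)).subtype ∘ₗ E.subtype
  have hι_inj : Function.Injective ι := fun x y hxy => Subtype.ext (Subtype.ext hxy)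
  have hιI : ∀ x : E, ι x ∈ (I₀ : Ideal R) := fun x => x.2
  have hιW : ∀ x : E, ι x ∈ 𝒞.W (m' + 1) := fun x => x.1.2
  -- Step 4: a section of exact pole order `m' + 1`
  have hx₀ : ∃ x₀ : E, ι x₀ ∉ 𝒞.W m' := by
    by_contra hcon
    simp only [not_exists, not_not] at hcon
    let g : E →ₗ[ℚ] 𝒞.W m' := ι.codRestrict (𝒞.W m') hcon
    let f : E →ₗ[ℚ] 𝒞.rrSpace m' I₀ := g.codRestrict (𝒞.rrSpace m' I₀) fun x => hιI x
    have hf : Function.Injective f := fun x y hxy => by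
      apply hι_inj
      have := congrArg (fun z : 𝒞.rrSpace m' I₀ => ((z : 𝒞.W m') : R)) hxy
      exact this
    have := LinearMap.finrank_le_finrank_of_injective hf
    omega
  obtain ⟨x₀, hx₀W⟩ := hx₀
  set v₀ := ι x₀ with hv₀
  have hv₀ne : v₀ ≠ 0 := fun h0 => hx₀W (by rw [h0]; exact Submodule.zero_mem _)
  obtain ⟨A, hA⟩ := exists_quot (hιI x₀)
  have hAne := quot_ne_bot hv₀ne hA
  -- Step 5: a second section without common zero
  have h𝒫fin : {P : Ideal R | P.IsMaximal ∧ v₀ ∈ (I₀ : Ideal R) * P}.Finite :=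
    (finite_maximal_dvd hAne).subset fun P hP => ⟨hP.1, (mem_mul_iff_dvd hI₀ne hA P).1 hP.2⟩
  let EP : Ideal R → Submodule ℚ E := fun P =>
    Submodule.comap ι (((I₀ : Ideal R) * P).restrictScalars ℚ)
  have hT : (EP '' {P : Ideal R | P.IsMaximal ∧ v₀ ∈ (I₀ : Ideal R) * P}).Finite :=
    h𝒫fin.image EP
  have hproper : ∀ p ∈ EP '' {P : Ideal R | P.IsMaximal ∧ v₀ ∈ (I₀ : Ideal R) * P}, p ≠ ⊤ := by
    rintro _ ⟨P, hP, rfl⟩ h
    obtain ⟨v, hvI, hvW, hvP⟩ := hBPF I₀ P (m' + 1) hI₀ne hP.1 (by omega)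
    have hmem : (⟨⟨v, hvW⟩, hvI⟩ : E) ∈ EP P := by
      rw [h]
      trivial
    exact hvP hmem
  have hdimE : 2 ≤ finrank ℚ E := by omega
  obtain ⟨x₁, hx₁line, hx₁⟩ := exists_avoid x₀ hdimE _ hT hproper
  set v₁ := ι x₁ with hv₁
  have hind : ∀ c : ℚ, v₁ ≠ c • v₀ := by
    intro c hc
    apply hx₁line c
    apply hι_inj
    rw [map_smul]
    exact hc
  have hcz : ∀ P : Ideal R, P.IsMaximal →
      ¬ (v₀ ∈ (I₀ : Ideal R) * P ∧ v₁ ∈ (I₀ : Ideal R) * P) := by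
    rintro P hP ⟨h0, h1⟩
    exact hx₁ (EP P) ⟨P, ⟨hP, h0⟩, rfl⟩ h1
  -- Step 6: the bad members of the pencil
  have hbad_a : {c : ℚ | v₁ - c • v₀ ∈ 𝒞.W m'}.Finite :=
    (pencil_subsingleton (𝒞.W m') fun h => hx₀W h.1).finite
  have hJfin : {P : Ideal R | P.IsMaximal ∧ P ∣ J}.Finite := finite_maximal_dvd hJ
  have hbad_b : (⋃ P ∈ {P : Ideal R | P.IsMaximal ∧ P ∣ J},
      {c : ℚ | v₁ - c • v₀ ∈ (((I₀ : Ideal R) * P).restrictScalars ℚ)}).Finite :=
    hJfin.biUnion fun P hP =>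
      (pencil_subsingleton (((I₀ : Ideal R) * P).restrictScalars ℚ) (hcz P hP.1)).finite
  have hbad_c := finite_nonreduced hRAM hSEP (FractionRing R) 𝒞.t hFIN.1 hFIN.2 hI₀ne
    (hιI x₀) (hιI x₁) hcz (transcendental_quot 𝒞 (FractionRing R) hB hv₀ne hind)
    (exists_relation 𝒞 (FractionRing R) (m := m' + 1) (by omega) (hιW x₀) (hιW x₁) hv₀ne)
  obtain ⟨c, hc⟩ := ((hbad_a.union hbad_b).union hbad_c).exists_notMem
  simp only [Set.mem_union, not_or] at hc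
  obtain ⟨⟨hca, hcb⟩, hcc⟩ := hc
  set v := v₁ - c • v₀ with hv
  have hvI : v ∈ (I₀ : Ideal R) :=
    ((I₀ : Ideal R).restrictScalars ℚ).sub_mem (hιI x₁)
      (((I₀ : Ideal R).restrictScalars ℚ).smul_mem c (hιI x₀))
  have hvW : v ∈ 𝒞.W (m' + 1) :=
    (𝒞.W (m' + 1)).sub_mem (hιW x₁) ((𝒞.W (m' + 1)).smul_mem c (hιW x₀))
  have hvW' : v ∉ 𝒞.W m' := hca
  have hvne : v ≠ 0 := fun h0 => hvW' (by rw [h0]; exact Submodule.zero_mem _)
  obtain ⟨I, hI⟩ := exists_quot hvI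
  have hIne := quot_ne_bot hvne hI
  refine ⟨⟨I, mem_nonZeroDivisors_iff_ne_zero.2 hIne⟩, ?_, ?_, ?_, ?_⟩
  · -- squarefree
    refine squarefree_of_forall_maximal fun P hP hdvd => hcc ⟨P, hP, ?_⟩
    exact (mem_mul_iff_dvd hI₀ne hI _).2 hdvd
  · -- coprime to `J`
    refine isCoprime_of_forall_maximal fun P hP hJP hdvd => hcb ?_
    refine Set.mem_biUnion (x := P) ⟨hP, Ideal.dvd_iff_le.2 hJP⟩ ?_
    exact (mem_mul_iff_dvd hI₀ne hI _).2 hdvd
  · -- degree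
    have h1 := hdegspan v hvne
    have h2 := hdegmul I₀ I hI₀ne hIne
    rw [← hI, h1, pole_eq_of_mem_of_not_mem 𝒞 hvW hvW'] at h2
    show 𝒞.deg I = _
    omega
  · -- class
    rw [mk0_quot (I₀ := I₀) (I := ⟨I, mem_nonZeroDivisors_iff_ne_zero.2 hIne⟩) hI, hI₀cls,
      inv_inv]

end Fermat.Agent.H30.MW

end
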