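import Fermat.Agent.H30.MW.MoveInterfaces

/-!
# P-MW / MW-MOVE (row 694, helper30): basic lemmas

Pole orders, small integral representatives of ideal classes, division of `(v)` by `I₀`.
-/

set_option autoImplicit false
set_option linter.unusedSectionVars false

noncomputable section

open Module Polynomial
open scoped nonZeroDivisors

namespace Fermat.Agent.H30.MW

open Fermat.Agent.H92.MW

variable {R : Type} [CommRing R] [Algebra ℚ R] [IsDedekindDomain R] (𝒞 : MWDatum R)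

/-! ### pole orders -/

lemma mem_W_pole (a : R) : a ∈ 𝒞.W (pole 𝒞 a) :=
  Nat.sInf_mem (s := {m : ℕ | a ∈ 𝒞.W m}) (𝒞.W_exhaust a)

lemma pole_le_of_mem {a : R} {m : ℕ} (h : a ∈ 𝒞.W m) : pole 𝒞 a ≤ m :=
  Nat.sInf_le (s := {m : ℕ | a ∈ 𝒞.W m}) h

lemma mem_W_of_pole_le {a : R} {m : ℕ} (h : pole 𝒞 a ≤ m) : a ∈ 𝒞.W m :=
  𝒞.W_mono h (mem_W_pole 𝒞 a)

lemma mem_W_iff_pole_le {a : R} {m : ℕ} : a ∈ 𝒞.W m ↔ pole 𝒞 a ≤ m :=
  ⟨pole_le_of_mem 𝒞, mem_W_of_pole_le 𝒞⟩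

lemma pole_eq_of_mem_of_not_mem {a : R} {m : ℕ} (h : a ∈ 𝒞.W (m + 1)) (h' : a ∉ 𝒞.W m) :
    pole 𝒞 a = m + 1 := by
  refine le_antisymm (pole_le_of_mem 𝒞 h) ?_
  by_contra hlt
  exact h' (mem_W_of_pole_le 𝒞 (by omega))

lemma algebraMap_mem_W (c : ℚ) (m : ℕ) : algebraMap ℚ R c ∈ 𝒞.W m := by
  have h0 : algebraMap ℚ R c ∈ 𝒞.W 0 := by
    rw [𝒞.W_zero]
    exact Submodule.algebraMap_mem c
  exact 𝒞.W_mono (Nat.zero_le m) h0

lemma mem_W_zero_iff {a : R} : a ∈ 𝒞.W 0 ↔ ∃ c : ℚ, algebraMap ℚ R c = a := by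
  rw [𝒞.W_zero, Submodule.mem_one]

lemma pole_one : pole 𝒞 (1 : R) = 0 := by
  have := pole_le_of_mem 𝒞 (a := (1 : R)) (m := 0) (by
    have := algebraMap_mem_W 𝒞 1 0
    simpa using this)
  omega

lemma finrank_W_le (m : ℕ) : finrank ℚ (𝒞.W m) ≤ m + 1 := by
  induction m with
  | zero =>
    rw [𝒞.W_zero, Submodule.one_eq_span]
    have hne : (1 : R) ≠ 0 := one_ne_zero
    rw [finrank_span_singleton hne]
  | succ m ih =>
    have := 𝒞.W_step m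
    omega

/-! ### division of `(v)` by `I₀` -/

lemma exists_quot {I₀ : Ideal R} {v : R} (hv : v ∈ I₀) :
    ∃ I : Ideal R, Ideal.span {v} = I₀ * I := by
  have h : Ideal.span {v} ≤ I₀ := (Ideal.span_singleton_le_iff_mem I₀).2 hv
  exact Ideal.dvd_iff_le.2 h

lemma mem_mul_iff_dvd {I₀ I : Ideal R} (hI₀ : I₀ ≠ ⊥) {v : R} (h : Ideal.span {v} = I₀ * I)
    (Q : Ideal R) : v ∈ I₀ * Q ↔ Q ∣ I := by
  rw [← Ideal.span_singleton_le_iff_mem, ← Ideal.dvd_iff_le, h]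
  exact mul_dvd_mul_iff_left hI₀

lemma quot_ne_bot {I₀ I : Ideal R} {v : R} (hv : v ≠ 0) (h : Ideal.span {v} = I₀ * I) :
    I ≠ ⊥ := by
  rintro rfl
  rw [Ideal.mul_bot, Ideal.span_singleton_eq_bot] at h
  exact hv h

/-- The class of the quotient `(v) / I₀`. -/
lemma mk0_quot {I₀ I : (Ideal R)⁰} {v : R} (h : Ideal.span {v} = (I₀ : Ideal R) * I) :
    ClassGroup.mk0 I = (ClassGroup.mk0 I₀)⁻¹ := by
  have hprin : ClassGroup.mk0 (I₀ * I) = 1 := by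
    rw [ClassGroup.mk0_eq_one_iff]
    exact ⟨⟨v, by
      show ((I₀ : Ideal R) * (I : Ideal R)) = _
      rw [← h]⟩⟩
  rw [map_mul] at hprin
  exact eq_inv_of_mul_eq_one_right hprin

/-! ### small integral representatives -/

/-- Every ideal class contains an integral ideal of degree at most `max g m₀`. -/
lemma exists_small_rep (hB : BasicStatement 𝒞) (y : ClassGroup R) :
    ∃ I₀ : (Ideal R)⁰, ClassGroup.mk0 I₀ = y ∧ 𝒞.deg I₀ ≤ max 𝒞.g 𝒞.m₀ := by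
  obtain ⟨-, hRR, -, hdegspan, hdegmul, -⟩ := hB
  obtain ⟨I₁, hI₁⟩ := ClassGroup.mk0_surjective y⁻¹
  have hI₁ne : (I₁ : Ideal R) ≠ ⊥ := mem_nonZeroDivisors_iff_ne_zero.1 I₁.2
  set δ := 𝒞.deg I₁ with hδ
  set M := δ + max 𝒞.g 𝒞.m₀ with hM
  have hrr := hRR I₁ M hI₁ne (by omega)
  have hpos : 0 < finrank ℚ (𝒞.rrSpace M I₁) := by omega
  obtain ⟨b', hb'⟩ : ∃ b' : 𝒞.rrSpace M I₁, b' ≠ 0 := by
    by_contra hcon
    simp only [ne_eq, not_exists, not_not] at hcon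
    have : Subsingleton (𝒞.rrSpace M I₁) := ⟨fun a b => by rw [hcon a, hcon b]⟩
    rw [Module.finrank_zero_of_subsingleton] at hpos
    exact lt_irrefl _ hpos
  have hbW : (b' : 𝒞.W M).1 ∈ 𝒞.W M := (b' : 𝒞.W M).2
  have hbI : (b' : 𝒞.W M).1 ∈ (I₁ : Ideal R) := b'.2
  have hbne : (b' : 𝒞.W M).1 ≠ 0 := by
    intro h0
    apply hb'
    apply Subtype.ext
    apply Subtype.ext
    exact h0
  obtain ⟨I₀, hI₀⟩ := exists_quot hbI
  have hI₀ne : I₀ ≠ ⊥ := quot_ne_bot hbne hI₀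
  refine ⟨⟨I₀, mem_nonZeroDivisors_iff_ne_zero.2 hI₀ne⟩, ?_, ?_⟩
  · rw [mk0_quot (I₀ := I₁) (I := ⟨I₀, mem_nonZeroDivisors_iff_ne_zero.2 hI₀ne⟩) hI₀, hI₁,
      inv_inv]
  · have h1 := hdegspan _ hbne
    have h2 := hdegmul I₁ I₀ hI₁ne hI₀ne
    rw [← hI₀, h1] at h2
    have h3 := pole_le_of_mem 𝒞 hbW
    show 𝒞.deg I₀ ≤ _
    omega

end Fermat.Agent.H30.MW

end
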