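import Fermat.Agent.H30.MW.Move
import Fermat.Agent.H48.MW.Bpf
import Fermat.Agent.H46.MW.FiniteOverT
import Fermat.Agent.H1.MW.UnramifiedStmt
import Fermat.Agent.H5.MW.Sep

/-!
# P-MW / MW-MOVE (row 694, helper30): the moving lemma

`move : BasicStatement 𝒞 → 𝒞.MoveStatement`: every ideal class contains a squarefree integral
ideal of degree `max g m₀ + 1`, coprime to any given nonzero ideal.

Inputs: base-point-freeness (helper48), finiteness over `ℚ[t]` (helper46), finiteness of
ramification (helper1), separable specialisations (helper5), local argument + assembly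
(helper30).
-/

set_option autoImplicit false

namespace Fermat.Agent.H30.MW

open Fermat.Agent.H92.MW

variable {R : Type} [CommRing R] [Algebra ℚ R] [IsDedekindDomain R]

/-- **MW-MOVE** the moving lemma. -/
theorem move (𝒞 : MWDatum R) (hB : BasicStatement 𝒞) : 𝒞.MoveStatement :=
  move_of_parts 𝒞 hB (Fermat.Agent.H48.Bpf.bpf 𝒞 hB) (Fermat.Agent.H46.MW.finiteOverT 𝒞 hB)
    Fermat.Agent.H1.MW.unramifiedStatement Fermat.Agent.H5.MW.sep

end Fermat.Agent.H30.MW
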