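import Fermat.Agent.H30.MW.MoveBasics

/-!
# P-MW / MW-MOVE (row 694, helper30): the local argument

In a pencil `v₁ - c v₀` (`v₀, v₁ ∈ I₀` without common zero outside `I₀`) only finitely many
members vanish to order `≥ 2` (relative to `I₀`) at some maximal ideal.
-/

set_option autoImplicit false
set_option linter.unusedSectionVars false

noncomputable section

open Module Polynomial IsDedekindDomain
open scoped nonZeroDivisors WithZero

namespace Fermat.Agent.H30.MW

open Fermat.Agent.H92.MW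

variable {R : Type} [CommRing R] [Algebra ℚ R] [IsDedekindDomain R]

/-! ### valuations from ideal membership -/

/-- If `v₀ ∈ I₀ ∖ I₀ P` and `y ∈ I₀ P ^ k`, then `v(y) ≤ exp (-k) v(v₀)`. -/
lemma intValuation_le_of_mem (v : HeightOneSpectrum R) {I₀ : Ideal R} (hI₀ : I₀ ≠ ⊥)
    {v₀ : R} (h₀ : v₀ ∈ I₀) (h₀' : v₀ ∉ I₀ * v.asIdeal) (k : ℕ) {y : R}
    (hy : y ∈ I₀ * v.asIdeal ^ k) :
    v.intValuation y ≤ WithZero.exp (-(k : ℤ)) * v.intValuation v₀ := by
  obtain ⟨A, hA⟩ := exists_quot h₀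
  have hPA : ¬ v.asIdeal ∣ A := fun h => h₀' ((mem_mul_iff_dvd hI₀ hA _).2 h)
  have hAP : ¬ A ≤ v.asIdeal := fun h => hPA (Ideal.dvd_iff_le.2 h)
  obtain ⟨α, hαA, hαP⟩ := Set.not_subset.1 hAP
  have h1 : y * α ∈ Ideal.span {v₀} * v.asIdeal ^ k := by
    rw [hA, mul_assoc, mul_comm A, ← mul_assoc]
    exact Ideal.mul_mem_mul hy hαA
  obtain ⟨β, hβ, hβeq⟩ := Ideal.mem_span_singleton_mul.1 h1
  have h2 : v.intValuation y * v.intValuation α = v.intValuation v₀ * v.intValuation β := by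
    rw [← map_mul, ← map_mul, hβeq]
  have h3 : v.intValuation α = 1 := HeightOneSpectrum.intValuation_eq_one_iff.2 hαP
  have h4 : v.intValuation β ≤ WithZero.exp (-(k : ℤ)) :=
    (v.intValuation_le_pow_iff_mem β k).2 hβ
  rw [h3, mul_one] at h2
  rw [h2, mul_comm]
  exact mul_le_mul_left h4 _

/-! ### the valuation ring contains `ℚ[h, t]` -/

section Val

variable {K : Type} [Field K] [Algebra R K] [IsFractionRing R K] [Algebra ℚ K]
  [IsScalarTower ℚ R K] (v : HeightOneSpectrum R)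

lemma val_algebraMap_rat_le_one (q : ℚ) : v.valuation K (algebraMap ℚ K q) ≤ 1 := by
  rw [IsScalarTower.algebraMap_apply ℚ R K]
  exact v.valuation_le_one _

lemma val_aeval_le_one {h : K} (hh : v.valuation K h ≤ 1) (p : ℚ[X]) :
    v.valuation K (aeval h p) ≤ 1 := by
  rw [aeval_eq_sum_range]
  refine Valuation.map_sum_le _ fun i _ => ?_
  rw [Algebra.smul_def, map_mul, map_pow]
  exact mul_le_one' (val_algebraMap_rat_le_one v _) (pow_le_one' hh i)

lemma eval₂₂_eq_sum (h t : K) (G : (ℚ[X])[X]) :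
    eval₂₂ h t G = ∑ j ∈ Finset.range (G.natDegree + 1), aeval h (G.coeff j) * t ^ j := by
  unfold eval₂₂
  rw [eval_map, eval₂_eq_sum_range]
  rfl

lemma algebraMap_aeval_spec_eq_sum (t : R) (c : ℚ) (G : (ℚ[X])[X]) :
    algebraMap R K (aeval t (G.map (evalRingHom c)))
      = ∑ j ∈ Finset.range (G.natDegree + 1),
          algebraMap ℚ K ((G.coeff j).eval c) * (algebraMap R K t) ^ j := by
  rw [aeval_def, eval₂_map, eval₂_eq_sum_range, map_sum]
  refine Finset.sum_congr rfl fun j _ => ?_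
  rw [map_mul, map_pow, RingHom.comp_apply, coe_evalRingHom,
    ← IsScalarTower.algebraMap_apply ℚ R K]

/-- The local computation: if `v₁ - c v₀` vanishes to order `≥ 2` at `P` (relative to `I₀`) and
`G(v₁ / v₀, t) = 0`, then `G(c, t) ∈ P ^ 2`. -/
theorem aeval_spec_mem_sq {I₀ : Ideal R} (hI₀ : I₀ ≠ ⊥) {v₀ v₁ : R}
    (h₀ : v₀ ∈ I₀) (h₀' : v₀ ∉ I₀ * v.asIdeal) (h₁ : v₁ ∈ I₀) (t : R) (c : ℚ)
    (hc : v₁ - c • v₀ ∈ I₀ * v.asIdeal ^ 2) (G : (ℚ[X])[X])
    (hG : eval₂₂ (algebraMap R K v₁ / algebraMap R K v₀) (algebraMap R K t) G = 0) :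
    aeval t (G.map (evalRingHom c)) ∈ v.asIdeal ^ 2 := by
  have hv₀ne : v₀ ≠ 0 := by
    rintro rfl
    exact h₀' (Ideal.zero_mem _)
  have hx₀ : algebraMap R K v₀ ≠ 0 := by
    rwa [Ne, IsFractionRing.to_map_eq_zero_iff]
  have hval₀ : v.valuation K (algebraMap R K v₀) ≠ 0 := by
    rwa [Ne, Valuation.zero_iff]
  set h : K := algebraMap R K v₁ / algebraMap R K v₀ with hh
  -- `v(h) ≤ 1`
  have hvalh : v.valuation K h ≤ 1 := by
    rw [hh, map_div₀, div_le_one₀ (zero_lt_iff.2 hval₀), HeightOneSpectrum.valuation_of_algebraMap,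
      HeightOneSpectrum.valuation_of_algebraMap]
    have := intValuation_le_of_mem v hI₀ h₀ h₀' 0 (y := v₁)
      (by rwa [pow_zero, Ideal.one_eq_top, Ideal.mul_top])
    simpa using this
  -- `v(h - c) ≤ exp (-2)`
  have hvalhc : v.valuation K (h - algebraMap ℚ K c) ≤ WithZero.exp (-(2 : ℤ)) := by
    have heq : h - algebraMap ℚ K c = algebraMap R K (v₁ - c • v₀) / algebraMap R K v₀ := by
      rw [hh, map_sub, Algebra.smul_def, map_mul, ← IsScalarTower.algebraMap_apply ℚ R K]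
      field_simp
    rw [heq, map_div₀, div_le_iff₀ (zero_lt_iff.2 hval₀),
      HeightOneSpectrum.valuation_of_algebraMap, HeightOneSpectrum.valuation_of_algebraMap]
    exact intValuation_le_of_mem v hI₀ h₀ h₀' 2 hc
  -- termwise estimate
  have hterm : ∀ g : ℚ[X],
      v.valuation K (aeval h g - algebraMap ℚ K (g.eval c)) ≤ WithZero.exp (-(2 : ℤ)) := by
    intro g
    obtain ⟨q, hq⟩ := X_sub_C_dvd_sub_C_eval (a := c) (p := g)
    have : aeval h g - algebraMap ℚ K (g.eval c) = (h - algebraMap ℚ K c) * aeval h q := by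
      have := congrArg (aeval h) hq
      simpa using this
    rw [this, map_mul]
    calc v.valuation K (h - algebraMap ℚ K c) * v.valuation K (aeval h q)
        ≤ WithZero.exp (-(2 : ℤ)) * 1 := mul_le_mul' hvalhc (val_aeval_le_one v hvalh q)
      _ = _ := mul_one _
  have hvalt : v.valuation K (algebraMap R K t) ≤ 1 := v.valuation_le_one t
  have hmain : v.valuation K (algebraMap R K (aeval t (G.map (evalRingHom c))))
      ≤ WithZero.exp (-(2 : ℤ)) := by
    have hdiff : algebraMap R K (aeval t (G.map (evalRingHom c)))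
        = - ∑ j ∈ Finset.range (G.natDegree + 1),
            (aeval h (G.coeff j) - algebraMap ℚ K ((G.coeff j).eval c))
              * (algebraMap R K t) ^ j := by
      rw [algebraMap_aeval_spec_eq_sum, eq_neg_iff_add_eq_zero, ← Finset.sum_add_distrib, ← hG,
        eval₂₂_eq_sum]
      refine Finset.sum_congr rfl fun j _ => ?_
      ring
    rw [hdiff, Valuation.map_neg]
    refine Valuation.map_sum_le _ fun j _ => ?_
    rw [map_mul, map_pow]
    calc v.valuation K (aeval h (G.coeff j) - algebraMap ℚ K ((G.coeff j).eval c))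
          * v.valuation K (algebraMap R K t) ^ j
        ≤ WithZero.exp (-(2 : ℤ)) * 1 := mul_le_mul' (hterm _) (pow_le_one' hvalt j)
      _ = _ := mul_one _
  rw [HeightOneSpectrum.valuation_of_algebraMap] at hmain
  exact (v.intValuation_le_pow_iff_mem _ 2).1 (by exact_mod_cast hmain)

end Val

/-! ### unramified primes and separable specialisations -/

/-- If `P` is unramified over `ℚ[t]` with generator `π` and `g(t) ∈ P ^ 2`, then `g` is not
separable. -/
lemma not_separable_of_mem_sq {P : Ideal R} (hP : P.IsMaximal) (t : R) (π : ℚ[X])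
    (hπ1 : aeval t π ∈ P) (hπ2 : aeval t π ∉ P ^ 2) (hπ3 : ∀ q : ℚ[X], aeval t q ∈ P → π ∣ q)
    (g : ℚ[X]) (hg : aeval t g ∈ P ^ 2) : ¬ g.Separable := by
  intro hsep
  have h1 : aeval t g ∈ P := Ideal.pow_le_self two_ne_zero hg
  obtain ⟨g₁, rfl⟩ := hπ3 g h1
  have h2 : aeval t g₁ * aeval t π ∈ P ^ 2 := by
    rw [mul_comm, ← map_mul]
    exact hg
  have h3 : aeval t g₁ ∈ P := (Ideal.IsMaximal.mul_mem_pow P h2).resolve_right hπ2
  obtain ⟨g₂, rfl⟩ := hπ3 g₁ h3
  have hsq : π * π ∣ π * (π * g₂) := ⟨g₂, by ring⟩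
  have hunit : IsUnit π := hsep.squarefree π hsq
  have : IsUnit (aeval t π) := hunit.map (aeval t)
  exact hP.ne_top (Ideal.eq_top_of_isUnit_mem _ hπ1 this)

section Finite

variable {K : Type} [Field K] [Algebra R K] [IsFractionRing R K] [Algebra ℚ K]
  [IsScalarTower ℚ R K]

/-- **Bertini for a pencil.**  In a pencil `v₁ - c v₀` without common zero outside `I₀` only
finitely many members vanish to order `≥ 2` (relative to `I₀`) at some maximal ideal. -/
theorem finite_nonreduced (hRAM : UnramifiedStatement) (hSEP : SepStatement) (K : Type)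
    [Field K] [Algebra R K] [IsFractionRing R K] [Algebra ℚ K] [IsScalarTower ℚ R K]
    (t : R) (ht : Transcendental ℚ t) (hfin : (aeval (R := ℚ) t).toRingHom.Finite)
    {I₀ : Ideal R} (hI₀ : I₀ ≠ ⊥) {v₀ v₁ : R} (h₀ : v₀ ∈ I₀) (h₁ : v₁ ∈ I₀)
    (hcz : ∀ P : Ideal R, P.IsMaximal → ¬ (v₀ ∈ I₀ * P ∧ v₁ ∈ I₀ * P))
    (htr : Transcendental ℚ (algebraMap R K v₁ / algebraMap R K v₀))
    (hF : ∃ F : (ℚ[X])[X], F ≠ 0 ∧
      eval₂₂ (algebraMap R K v₁ / algebraMap R K v₀) (algebraMap R K t) F = 0) :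
    {c : ℚ | ∃ P : Ideal R, P.IsMaximal ∧ v₁ - c • v₀ ∈ I₀ * P ^ 2}.Finite := by
  obtain ⟨S, hSfin, hS⟩ := hRAM R t ht hfin
  obtain ⟨G, hG, hGfin⟩ := hSEP K _ _ htr hF
  -- at a fixed maximal ideal at most one member of the pencil vanishes
  have hsub : ∀ P : Ideal R, {c : ℚ | P.IsMaximal ∧ v₁ - c • v₀ ∈ I₀ * P}.Subsingleton := by
    intro P c hc c' hc'
    by_contra hne
    have hP := hc.1
    have h1 : (c' - c) • v₀ ∈ I₀ * P := by
      have := (I₀ * P).sub_mem hc.2 hc'.2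
      have heq : v₁ - c • v₀ - (v₁ - c' • v₀) = (c' - c) • v₀ := by
        rw [sub_smul]; abel
      rwa [heq] at this
    have h2 : v₀ ∈ I₀ * P := by
      have hcc : c' - c ≠ 0 := sub_ne_zero.2 (Ne.symm hne)
      have := (I₀ * P).smul_mem (algebraMap ℚ R (c' - c)⁻¹) h1
      rwa [smul_eq_mul, Algebra.smul_def, ← mul_assoc, ← map_mul, inv_mul_cancel₀ hcc, map_one,
        one_mul] at this
    have h3 : v₁ ∈ I₀ * P := by
      have := (I₀ * P).add_mem hc.2
        ((I₀ * P).smul_mem (algebraMap ℚ R c) h2)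
      rwa [smul_eq_mul, ← Algebra.smul_def, sub_add_cancel] at this
    exact hcz P hP ⟨h2, h3⟩
  have hfin2 : (⋃ P ∈ S, {c : ℚ | P.IsMaximal ∧ v₁ - c • v₀ ∈ I₀ * P}).Finite :=
    hSfin.biUnion fun P _ => (hsub P).finite
  refine (hGfin.union hfin2).subset ?_
  rintro c ⟨P, hP, hc⟩
  have hcP : v₁ - c • v₀ ∈ I₀ * P :=
    Ideal.mul_mono_right (Ideal.pow_le_self two_ne_zero) hc
  by_cases hPS : P ∈ S
  · right
    exact Set.mem_biUnion hPS ⟨hP, hcP⟩
  · left
    obtain ⟨π, hπ1, hπ2, hπ3⟩ := hS P hP hPS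
    have hPne : P ≠ ⊥ := by
      rintro rfl
      apply hπ2
      rw [Ideal.mem_bot] at hπ1
      rw [hπ1]
      exact Ideal.zero_mem _
    have h₀' : v₀ ∉ I₀ * P := by
      intro h2
      have h3 : v₁ ∈ I₀ * P := by
        have := (I₀ * P).add_mem hcP ((I₀ * P).smul_mem (algebraMap ℚ R c) h2)
        rwa [smul_eq_mul, ← Algebra.smul_def, sub_add_cancel] at this
      exact hcz P hP ⟨h2, h3⟩
    let v : HeightOneSpectrum R := ⟨P, hP.isPrime, hPne⟩
    have hmem := aeval_spec_mem_sq (K := K) v hI₀ h₀ h₀' h₁ t c hc G hG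
    exact not_separable_of_mem_sq hP t π hπ1 hπ2 hπ3 _ hmem

end Finite

end Fermat.Agent.H30.MW

end
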